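/-
Shared analytic lemma for the X₀(N) projects (S20 / S23 / S24 plans):
"a ratio of modular forms which is integral over level-one forms is a modular form".
Neutral file: imports Mathlib only, statements about Mathlib's `ModularForm` structures and about
plain functions on `ℍ`.  (helper17)
-/
import Mathlib

set_option autoImplicit false

namespace Fermat.Agent.X0x

open UpperHalfPlane ModularForm Filter Topology
open scoped MatrixGroups Manifold

/-- **Cauchy root bound.** A root of a monic polynomial is bounded by `1 + ∑ ‖cᵢ‖`. -/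
theorem norm_le_of_monic_root {n : ℕ} (x : ℂ) (c : ℕ → ℂ)
    (h : x ^ (n + 1) + ∑ i ∈ Finset.range (n + 1), c i * x ^ (n - i) = 0) :
    ‖x‖ ≤ 1 + ∑ i ∈ Finset.range (n + 1), ‖c i‖ := by
  set S := ∑ i ∈ Finset.range (n + 1), ‖c i‖ with hS
  have hS0 : 0 ≤ S := Finset.sum_nonneg fun i _ => norm_nonneg _
  by_cases hx : ‖x‖ ≤ 1
  · linarith
  · replace hx : 1 < ‖x‖ := not_le.mp hx
    have h1 : x ^ (n + 1) = -∑ i ∈ Finset.range (n + 1), c i * x ^ (n - i) :=
      eq_neg_of_add_eq_zero_left h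
    have h2 : ‖x‖ ^ (n + 1) ≤ S * ‖x‖ ^ n := by
      calc ‖x‖ ^ (n + 1) = ‖x ^ (n + 1)‖ := (norm_pow _ _).symm
        _ = ‖∑ i ∈ Finset.range (n + 1), c i * x ^ (n - i)‖ := by rw [h1, norm_neg]
        _ ≤ ∑ i ∈ Finset.range (n + 1), ‖c i * x ^ (n - i)‖ := norm_sum_le _ _
        _ ≤ ∑ i ∈ Finset.range (n + 1), ‖c i‖ * ‖x‖ ^ n := by
            apply Finset.sum_le_sum
            intro i _
            rw [norm_mul, norm_pow]
            exact mul_le_mul_of_nonneg_left (pow_le_pow_right₀ hx.le (Nat.sub_le _ _))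
              (norm_nonneg _)
        _ = S * ‖x‖ ^ n := by rw [Finset.sum_mul]
    have hpos : 0 < ‖x‖ ^ n := pow_pos (by linarith) n
    have h3 : ‖x‖ ≤ S := by
      rw [pow_succ] at h2
      by_contra hlt
      replace hlt : S < ‖x‖ := not_le.mp hlt
      have := mul_lt_mul_of_pos_left hlt hpos
      linarith
    linarith

/-- The pointwise consequence of the integrality relation. -/
theorem norm_le_mul_of_relation {n : ℕ} (x y : ℂ) (c : ℕ → ℂ)
    (h : x ^ (n + 1) + ∑ i ∈ Finset.range (n + 1), c i * x ^ (n - i) * y ^ (i + 1) = 0) :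
    ‖x‖ ≤ (1 + ∑ i ∈ Finset.range (n + 1), ‖c i‖) * ‖y‖ := by
  by_cases hy : y = 0
  · subst hy
    have h0 : x ^ (n + 1) = 0 := by
      have : ∑ i ∈ Finset.range (n + 1), c i * x ^ (n - i) * (0 : ℂ) ^ (i + 1) = 0 :=
        Finset.sum_eq_zero fun i _ => by simp
      rwa [this, add_zero] at h
    have hx : x = 0 := pow_eq_zero_iff (Nat.succ_ne_zero n) |>.mp h0
    simp [hx]
  · have hroot : (x / y) ^ (n + 1) + ∑ i ∈ Finset.range (n + 1), c i * (x / y) ^ (n - i) = 0 := by
      have hyn : y ^ (n + 1) ≠ 0 := pow_ne_zero _ hy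
      have e : (x / y) ^ (n + 1) + ∑ i ∈ Finset.range (n + 1), c i * (x / y) ^ (n - i) =
          (x ^ (n + 1) + ∑ i ∈ Finset.range (n + 1), c i * x ^ (n - i) * y ^ (i + 1)) /
            y ^ (n + 1) := by
        rw [add_div, Finset.sum_div, div_pow]
        congr 1
        refine Finset.sum_congr rfl fun i hi => ?_
        have hi' : i ≤ n := Nat.lt_succ_iff.mp (Finset.mem_range.mp hi)
        have hsplit : y ^ (n + 1) = y ^ (n - i) * y ^ (i + 1) := by
          rw [← pow_add]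
          congr 1
          omega
        rw [div_pow, hsplit]
        field_simp
      rw [e, h, zero_div]
    have hb := norm_le_of_monic_root (x / y) c hroot
    have hy' : 0 < ‖y‖ := norm_pos_iff.mpr hy
    rw [norm_div, div_le_iff₀ hy'] at hb
    exact hb

/-! ### Division of holomorphic functions on `ℍ` -/

/-- zeros of a nonzero holomorphic function on `ℍ` are isolated (statement in `ℂ`). -/
theorem eventually_ne_zero_of_mdiff {G : ℍ → ℂ} (hG : MDiff G) (hG0 : G ≠ 0) (τ : ℍ) :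
    ∀ᶠ w in 𝓝[≠] (τ : ℂ), G (ofComplex w) ≠ 0 := by
  have h1 : ¬ ∃ᶠ z in 𝓝[≠] τ, G z = 0 := fun h => hG0 (UpperHalfPlane.eq_zero_of_frequently hG h)
  rw [Filter.not_frequently] at h1
  rw [eventually_nhdsWithin_iff] at h1 ⊢
  rw [← isOpenEmbedding_coe.map_nhds_eq, eventually_map]
  filter_upwards [h1] with z hz hne
  rw [ofComplex_apply]
  exact hz (fun h => hne (Set.mem_singleton_iff.mpr (congrArg _ (Set.mem_singleton_iff.mp h))))

theorem exists_mdiff_quotient_of_bound {F G : ℍ → ℂ} (hF : MDiff F) (hG : MDiff G) (hG0 : G ≠ 0)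
    (B : ℍ → ℝ) (hB : Continuous B) (hFG : ∀ z, ‖F z‖ ≤ B z * ‖G z‖) :
    ∃ H : ℍ → ℂ, MDiff H ∧ H * G = F := by
  classical
  set f : ℂ → ℂ := F ∘ ofComplex with hf
  set g : ℂ → ℂ := G ∘ ofComplex with hg
  set φ : ℂ → ℂ := fun w => f w / g w with hφ
  set h : ℂ → ℂ := fun w => if g w = 0 then limUnder (𝓝[≠] w) φ else φ w with hh
  have hfd : DifferentiableOn ℂ f upperHalfPlaneSet := UpperHalfPlane.mdifferentiable_iff.mp hF
  have hgd : DifferentiableOn ℂ g upperHalfPlaneSet := UpperHalfPlane.mdifferentiable_iff.mp hG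
  have hU : IsOpen upperHalfPlaneSet := isOpen_upperHalfPlaneSet
  -- differentiability of `h` at every point of the upper half plane
  have hhd : ∀ w₀ ∈ upperHalfPlaneSet, DifferentiableAt ℂ h w₀ := by
    intro w₀ hw₀
    have hfa : DifferentiableAt ℂ f w₀ := hfd.differentiableAt (hU.mem_nhds hw₀)
    have hga : DifferentiableAt ℂ g w₀ := hgd.differentiableAt (hU.mem_nhds hw₀)
    by_cases hz : g w₀ = 0
    · -- removable singularity
      set τ : ℍ := ⟨w₀, hw₀⟩ with hτ
      have hiso : ∀ᶠ w in 𝓝[≠] w₀, g w ≠ 0 := eventually_ne_zero_of_mdiff hG hG0 τ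
      have hBc : ContinuousAt (fun w => B (ofComplex w)) w₀ := by
        have h1 : ContinuousAt ofComplex w₀ :=
          ofComplex.continuousAt (show w₀ ∈ ofComplex.source from ⟨⟨w₀, hw₀⟩, Set.mem_univ _, rfl⟩)
        exact hB.continuousAt.comp h1
      have hBev : ∀ᶠ w in 𝓝 w₀, B (ofComplex w) < B (ofComplex w₀) + 1 :=
        hBc.eventually (gt_mem_nhds (by linarith))
      rw [eventually_nhdsWithin_iff] at hiso
      -- the good neighbourhood
      set s : Set ℂ := {w | w ∈ upperHalfPlaneSet ∧ (w ≠ w₀ → g w ≠ 0) ∧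
        B (ofComplex w) < B (ofComplex w₀) + 1} with hs
      have hsn : s ∈ 𝓝 w₀ := by
        filter_upwards [hU.mem_nhds hw₀, hiso, hBev] with w h1 h2 h3
        exact ⟨h1, h2, h3⟩
      have hφd : DifferentiableOn ℂ φ (s \ {w₀}) := by
        intro w hw
        have hwU : w ∈ upperHalfPlaneSet := hw.1.1
        have hgw : g w ≠ 0 := hw.1.2.1 (by simpa using hw.2)
        exact ((hfd.differentiableAt (hU.mem_nhds hwU)).div
          (hgd.differentiableAt (hU.mem_nhds hwU)) hgw).differentiableWithinAt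
      have hφb : BddAbove (norm ∘ φ '' (s \ {w₀})) := by
        refine ⟨B (ofComplex w₀) + 1, ?_⟩
        rintro _ ⟨w, hw, rfl⟩
        have hgw : g w ≠ 0 := hw.1.2.1 (by simpa using hw.2)
        have hb := hFG (ofComplex w)
        have hgpos : 0 < ‖g w‖ := norm_pos_iff.mpr hgw
        show ‖f w / g w‖ ≤ _
        rw [norm_div, div_le_iff₀ hgpos]
        calc ‖f w‖ ≤ B (ofComplex w) * ‖g w‖ := hb
          _ ≤ (B (ofComplex w₀) + 1) * ‖g w‖ :=
            mul_le_mul_of_nonneg_right hw.1.2.2.le (norm_nonneg _)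
      have hupd := Complex.differentiableOn_update_limUnder_of_bddAbove hsn hφd hφb
      have hupd' : DifferentiableAt ℂ (Function.update φ w₀ (limUnder (𝓝[≠] w₀) φ)) w₀ :=
        hupd.differentiableAt hsn
      refine hupd'.congr_of_eventuallyEq ?_
      filter_upwards [hsn] with w hw
      by_cases hww : w = w₀
      · subst hww
        simp [hh, hz]
      · have hgw : g w ≠ 0 := hw.2.1 hww
        simp [hh, hgw, Function.update_of_ne hww]
    · -- `g w₀ ≠ 0`
      have hev : ∀ᶠ w in 𝓝 w₀, g w ≠ 0 := hga.continuousAt.eventually_ne hz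
      have : DifferentiableAt ℂ φ w₀ := hfa.div hga hz
      refine this.congr_of_eventuallyEq ?_
      filter_upwards [hev] with w hw
      simp [hh, hw]
  refine ⟨fun z => h z, ?_, ?_⟩
  · rw [UpperHalfPlane.mdifferentiable_iff]
    have : DifferentiableOn ℂ h upperHalfPlaneSet := fun w hw =>
      (hhd w hw).differentiableWithinAt
    refine this.congr ?_
    intro w hw
    simp [Function.comp, ofComplex_apply_of_im_pos hw]
  · funext z
    have hgz : g z = G z := by simp [hg]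
    have hfz : f z = F z := by simp [hf]
    by_cases hz : G z = 0
    · have hF0 : F z = 0 := by
        have := hFG z
        rw [hz, norm_zero, mul_zero] at this
        exact norm_le_zero_iff.mp this
      simp [hz, hF0]
    · have hgz' : g z ≠ 0 := by rwa [hgz]
      have hhz : h z = F z / G z := by
        simp only [hh, hφ]
        rw [if_neg hgz', hgz, hfz]
      show h z * G z = F z
      rw [hhz]
      field_simp

/-- Division of holomorphic functions on `ℍ` under an integrality relation. -/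
theorem exists_mdiff_quotient {n : ℕ} {F G : ℍ → ℂ} (hF : MDiff F) (hG : MDiff G) (hG0 : G ≠ 0)
    (c : ℕ → ℍ → ℂ) (hc : ∀ i, MDiff (c i))
    (h : F ^ (n + 1) + ∑ i ∈ Finset.range (n + 1), c i * F ^ (n - i) * G ^ (i + 1) = 0) :
    ∃ H : ℍ → ℂ, MDiff H ∧ H * G = F ∧
      H ^ (n + 1) + ∑ i ∈ Finset.range (n + 1), c i * H ^ (n - i) = 0 ∧
      ∀ z, ‖H z‖ ≤ 1 + ∑ i ∈ Finset.range (n + 1), ‖c i z‖ := by
  have hBc : Continuous fun z : ℍ => 1 + ∑ i ∈ Finset.range (n + 1), ‖c i z‖ :=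
    continuous_const.add (continuous_finsetSum _ fun i _ => (hc i).continuous.norm)
  have hFG : ∀ z, ‖F z‖ ≤ (1 + ∑ i ∈ Finset.range (n + 1), ‖c i z‖) * ‖G z‖ := by
    intro z
    refine norm_le_mul_of_relation (F z) (G z) (fun i => c i z) ?_
    have := congrFun h z
    simpa [Finset.sum_apply] using this
  obtain ⟨H, hH, hHG⟩ := exists_mdiff_quotient_of_bound hF hG hG0 _ hBc hFG
  have hP : MDiff (H ^ (n + 1) + ∑ i ∈ Finset.range (n + 1), c i * H ^ (n - i)) :=
    (hH.pow _).add (MDifferentiable.sum fun i _ => (hc i).mul (hH.pow _))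
  have hprod : (H ^ (n + 1) + ∑ i ∈ Finset.range (n + 1), c i * H ^ (n - i)) * G ^ (n + 1) = 0 := by
    rw [← h, ← hHG, add_mul, Finset.sum_mul, mul_pow]
    congr 1
    refine Finset.sum_congr rfl fun i hi => ?_
    have hi' : i ≤ n := Nat.lt_succ_iff.mp (Finset.mem_range.mp hi)
    have hsplit : G ^ (n + 1) = G ^ (n - i) * G ^ (i + 1) := by
      rw [← pow_add]
      congr 1
      omega
    rw [hsplit, mul_pow]
    ring
  have hrel : H ^ (n + 1) + ∑ i ∈ Finset.range (n + 1), c i * H ^ (n - i) = 0 := by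
    rcases (UpperHalfPlane.mul_eq_zero_iff hP (hG.pow _)).mp hprod with h1 | h1
    · exact h1
    · exfalso
      apply hG0
      funext z
      have := congrFun h1 z
      simpa using this
  refine ⟨H, hH, hHG, hrel, fun z => ?_⟩
  refine norm_le_of_monic_root (H z) (fun i => c i z) ?_
  have := congrFun hrel z
  simpa [Finset.sum_apply] using this

/-! ### The modular version -/

/-- pointwise transport of the monic relation along `γ ∈ SL(2, ℤ)` -/
theorem monic_relation_transport {n : ℕ} (x D : ℂ) (hD : D ≠ 0) (a b : ℕ → ℂ)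
    (hab : ∀ i, b i = D ^ (i + 1) * a i)
    (h : x ^ (n + 1) + ∑ i ∈ Finset.range (n + 1), b i * x ^ (n - i) = 0) :
    (x * D⁻¹) ^ (n + 1) + ∑ i ∈ Finset.range (n + 1), a i * (x * D⁻¹) ^ (n - i) = 0 := by
  have e : (x * D⁻¹) ^ (n + 1) + ∑ i ∈ Finset.range (n + 1), a i * (x * D⁻¹) ^ (n - i) =
      (x ^ (n + 1) + ∑ i ∈ Finset.range (n + 1), b i * x ^ (n - i)) * (D⁻¹) ^ (n + 1) := by
    rw [add_mul, Finset.sum_mul, mul_pow]
    congr 1
    refine Finset.sum_congr rfl fun i hi => ?_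
    have hi' : i ≤ n := Nat.lt_succ_iff.mp (Finset.mem_range.mp hi)
    have hsplit : (D⁻¹) ^ (n + 1) = (D⁻¹) ^ (n - i) * (D⁻¹) ^ (i + 1) := by
      rw [← pow_add]
      congr 1
      omega
    rw [hsplit, hab i, mul_pow, inv_pow, inv_pow]
    have hDi : D ^ (i + 1) ≠ 0 := pow_ne_zero _ hD
    field_simp
  rw [e, h, zero_mul]

/-- **Graded integrality ⇒ modular form.** If `F / G` (with `F ∈ M_{k+l}(Γ)`, `0 ≠ G ∈ M_l(Γ)`)
satisfies a monic equation whose `i`-th coefficient is a level one form of weight `(i+1) k`, then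
`F = H G` with `H ∈ M_k(Γ)`. -/
theorem exists_modularForm_mul_eq {Γ : Subgroup (GL (Fin 2) ℝ)} [Γ.HasDetOne] [Γ.IsArithmetic]
    {k l : ℤ} {n : ℕ} (F : ModularForm Γ (k + l)) (G : ModularForm Γ l) (hG : (G : ℍ → ℂ) ≠ 0)
    (c : ℕ → ℍ → ℂ) (hc : ∀ i, ∃ C : ModularForm 𝒮ℒ (((i + 1 : ℕ) : ℤ) * k), (C : ℍ → ℂ) = c i)
    (h : (F : ℍ → ℂ) ^ (n + 1) +
      ∑ i ∈ Finset.range (n + 1), c i * (F : ℍ → ℂ) ^ (n - i) * (G : ℍ → ℂ) ^ (i + 1) = 0) :
    ∃ H : ModularForm Γ k, (H : ℍ → ℂ) * G = F := by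
  have hcm : ∀ i, MDiff (c i) := fun i => by
    obtain ⟨C, hC⟩ := hc i
    rw [← hC]
    exact C.holo'
  obtain ⟨H, hH, hHG0, hrel, -⟩ := exists_mdiff_quotient F.holo' G.holo' hG c hcm h
  have hHG : H * (G : ℍ → ℂ) = (F : ℍ → ℂ) := hHG0
  -- slash invariance
  have hinv : ∀ γ ∈ Γ, H ∣[k] γ = H := by
    intro γ hγ
    have hdet : γ.det = 1 := Subgroup.HasDetOne.det_eq hγ
    have h1 : (H * G) ∣[k + l] γ = (H ∣[k] γ) * ((G : ℍ → ℂ) ∣[l] γ) := by
      rw [ModularForm.mul_slash]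
      simp [hdet]
    have hGi : (G : ℍ → ℂ) ∣[l] γ = G := SlashInvariantForm.slash_action_eqn G γ hγ
    have hFi : (F : ℍ → ℂ) ∣[k + l] γ = F := SlashInvariantForm.slash_action_eqn F γ hγ
    rw [hHG, hFi, hGi] at h1
    have h2 : (H ∣[k] γ - H) * G = 0 := by rw [sub_mul, ← h1, hHG, sub_self]
    rcases (UpperHalfPlane.mul_eq_zero_iff ((hH.slash k γ).sub hH) G.holo').mp h2 with h3 | h3
    · exact sub_eq_zero.mp h3
    · exact absurd h3 hG
  refine ⟨{ toFun := H, slash_action_eq' := hinv, holo' := hH, bdd_at_cusps' := ?_ }, hHG⟩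
  intro cusp hcusp
  rw [Subgroup.IsArithmetic.isCusp_iff_isCusp_SL2Z] at hcusp
  rw [OnePoint.isBoundedAt_iff_forall_SL2Z hcusp]
  intro γ _
  -- pointwise bound for `H ∣[k] γ`
  have hbound : ∀ z : ℍ, ‖(H ∣[k] γ) z‖ ≤ 1 + ∑ i ∈ Finset.range (n + 1), ‖c i z‖ := by
    intro z
    have hd : denom γ z ≠ 0 := denom_ne_zero _ z
    have hD : denom γ z ^ k ≠ 0 := zpow_ne_zero _ hd
    have hval : (H ∣[k] γ) z = H (γ • z) * (denom γ z ^ k)⁻¹ := by
      rw [ModularForm.SL_slash_apply, zpow_neg]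
    rw [hval]
    refine norm_le_of_monic_root _ (fun i => c i z) ?_
    refine monic_relation_transport (H (γ • z)) (denom γ z ^ k) hD (fun i => c i z)
      (fun i => c i (γ • z)) ?_ ?_
    · intro i
      obtain ⟨C, hC⟩ := hc i
      have hmem : (Matrix.SpecialLinearGroup.mapGL ℝ γ : GL (Fin 2) ℝ) ∈ 𝒮ℒ := ⟨γ, rfl⟩
      have := SlashInvariantForm.slash_action_eqn'' C hmem z
      rw [← hC]
      rw [← zpow_natCast, ← zpow_mul, mul_comm k]
      exact this
    · have := congrFun hrel (γ • z)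
      simpa [Finset.sum_apply] using this
  -- boundedness at `i∞`
  have hbig : (fun z : ℍ => (1 : ℝ) + ∑ i ∈ Finset.range (n + 1), ‖c i z‖) =O[atImInfty]
      (1 : ℍ → ℝ) := by
    refine (Asymptotics.isBigO_refl _ _).add (Asymptotics.IsBigO.fun_sum fun i _ => ?_)
    obtain ⟨C, hC⟩ := hc i
    have hCb : IsBoundedAtImInfty (C : ℍ → ℂ) := ModularFormClass.bdd_at_infty C
    rw [hC] at hCb
    exact hCb.norm_left
  refine Asymptotics.IsBigO.trans (Asymptotics.isBigO_of_le _ fun z => ?_) hbig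
  rw [Real.norm_of_nonneg (add_nonneg zero_le_one (Finset.sum_nonneg fun i _ => norm_nonneg _))]
  exact hbound z

end Fermat.Agent.X0x
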